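import Fermat.Agent.Two.Inputs
import Fermat.Agent.Deform.Residual
import Fermat.Prelude.Def_GaloisRep_Flat
import Mathlib.GroupTheory.PGroup
import Mathlib.NumberTheory.NumberField.Basic
import Mathlib.RingTheory.ClassGroup.Basic

/-!
# The two halves of the congruence input and their parts

`IsLift` collects the conditions on a lift of `W[2]` together with a sign at every auxiliary prime.
`GaloisInput` bounds the rings in characteristic two generated by the traces and the signs of a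
lift; `ModularInput` provides as many congruent eigenforms with lifts over a common coefficient
ring.
-/

set_option autoImplicit false

noncomputable section

namespace Fermat.Agent.Two

open WeierstrassCurve IsLocalRing Module
open Fermat.Agent.Deform Fermat.Agent.EC.Rep

local notation "Q̄" => AlgebraicClosure ℚ

/-- The field generated by a square root of the discriminant. -/
def quadField (W : WeierstrassCurve ℤ) : IntermediateField ℚ Q̄ :=
  IntermediateField.adjoin ℚ {y : Q̄ | y ^ 2 = (W.Δ : Q̄)}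

instance finiteDimensional_quadField (W : WeierstrassCurve ℤ) :
    FiniteDimensional ℚ (quadField W) := by
  have h0 : (Polynomial.X ^ 2 - Polynomial.C (W.Δ : Q̄)) ≠ 0 :=
    Polynomial.X_pow_sub_C_ne_zero two_pos _
  have hfin : {y : Q̄ | y ^ 2 = (W.Δ : Q̄)}.Finite :=
    (Polynomial.finite_setOfPred_isRoot h0).subset fun y hy => by
      simpa [Polynomial.IsRoot, sub_eq_zero] using hy
  have : Finite {y : Q̄ | y ^ 2 = (W.Δ : Q̄)} := hfin.to_subtype
  exact IntermediateField.finiteDimensional_adjoin fun y _ =>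
    Algebra.IsIntegral.isIntegral y

instance numberField_quadField (W : WeierstrassCurve ℤ) : NumberField (quadField W) where
  to_charZero := inferInstance
  to_finiteDimensional := inferInstance

/-- The order of the `2`-part of the class group of `quadField W`. -/
def classTwo (W : WeierstrassCurve ℤ) : ℕ :=
  2 ^ padicValNat 2 (Nat.card (ClassGroup (NumberField.RingOfIntegers (quadField W))))

/-- A lift of `W[2]`: cyclotomic determinant, unramified outside `2`, the bad primes and `V`, flat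
at `2`, unipotent at the bad primes, and special of sign `z v` at `v ∈ V`. -/
structure IsLift (W : WeierstrassCurve ℤ) (hΔ : W.Δ ≠ 0) (V : Finset ℕ) {A : Type} [CommRing A]
    [IsLocalRing A] (ρ : Gal →* M2 A) (hρ : IsCont ρ) (z : ℕ → A) : Prop where
  residual :
    haveI : Fact (Nat.Prime 2) := ⟨Nat.prime_two⟩
    ∃ (φ : ZMod 2 →+* ResidueField A) (b : Basis (Fin 2) (ZMod 2) (residualRep W 2 hΔ).V),
      ∀ σ i j, residue A (ρ σ i j) = φ (matRes (residualRep W 2 hΔ) b σ i j)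
  detCyclotomic : (toRep ρ hρ).DetIsCyclotomic 2
  unramified : ∀ q : ℕ, q.Prime → q ≠ 2 → W.IsGoodPrimeFor q → q ∉ V →
    ∀ P : ValuationSubring Q̄, P.LiesOverPrime q → ∀ σ ∈ P.inertiaSubgroupIn ℚ, ρ σ = 1
  unipotent : ∀ q : ℕ, q.Prime → (q : ℤ) ∣ W.Δ →
    ∀ P : ValuationSubring Q̄, P.LiesOverPrime q → ∀ σ ∈ P.inertiaSubgroupIn ℚ,
      (ρ σ - 1) * (ρ σ - 1) = 0
  flat : (toRep ρ hρ).IsFlatAt 2
  sign_sq : ∀ v ∈ V, z v ^ 2 = 1
  special : ∀ v ∈ V, ∀ P : ValuationSubring Q̄, P.LiesOverPrime v →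
    ∀ φ : Gal, P.IsFrobeniusAt φ v →
      (ρ φ).trace = z v * ((v : A) + 1) ∧
        ∀ σ ∈ P.inertiaSubgroupIn ℚ,
          (ρ φ - (z v * (v : A)) • (1 : M2 A)) * (ρ σ - 1) = 0 ∧
            (ρ σ - 1) * (ρ φ - z v • (1 : M2 A)) = 0

/-- The rings of characteristic two with residue field `ZMod 2` generated by the traces and the
signs of a lift have at most `2 ^ c` elements. -/
def ModTwoBound (W : WeierstrassCurve ℤ) (hΔ : W.Δ ≠ 0) (V : Finset ℕ) (c : ℕ) : Prop :=
  ∀ (A : Type) [CommRing A] [IsLocalRing A] [Finite A] [CharP A 2],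
    Nat.card (ResidueField A) = 2 → ∀ (ρ : Gal →* M2 A) (hρ : IsCont ρ) (z : ℕ → A),
      IsLift W hΔ V ρ hρ z →
      Subring.closure (Set.range (fun σ => (ρ σ).trace) ∪ z '' (V : Set ℕ)) = ⊤ →
      Nat.card A ≤ 2 ^ c

/-- The Galois half: auxiliary primes of bounded number killing the classes of `W[2]`. -/
def GaloisInput : Prop :=
  ∀ (W : WeierstrassCurve ℤ) (hW : TwoCurve W), ∃ k : ℕ, ∀ (N : ℕ) (S : Finset ℕ), 0 < N →
    ∃ V : Finset ℕ, V.card = k ∧ Disjoint V S ∧
      (∀ v ∈ V, AuxPrime W hW.Δ_ne_zero v N ∧ v % 12 = 1) ∧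
      ModTwoBound W hW.Δ_ne_zero V (classTwo W * 2 ^ k)

/-- Eigenforms of level `4 * badLevel W * ∏ V` with lifts over a common coefficient ring `O`,
embedded in a valuation subring of `ℂ` over `2`, pairwise distinct and as many as `c`. -/
def ModularFamily (W : WeierstrassCurve ℤ) (hΔ : W.Δ ≠ 0) (V : Finset ℕ) (c : ℕ) : Prop :=
  haveI : Fact (Nat.Prime 2) := ⟨Nat.prime_two⟩
  ∃ (O : Type) (_ : CommRing O) (_ : IsDomain O) (_ : IsLocalRing O) (_ : CharZero O)
    (_ : Algebra ℤ_[2] O) (_ : Module.Finite ℤ_[2] O) (ι : Type) (_ : Finite ι)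
    (A : ValuationSubring ℂ) (j : O →+* ℂ),
    c ≤ Nat.card ι ∧ (2 : ℂ) ∈ A.nonunits ∧ Function.Injective j ∧ (∀ x, j x ∈ A) ∧
    ∃ (f : ι → CuspForm (CongruenceSubgroup.Gamma0 (4 * badLevel W * ∏ v ∈ V, v)) 2)
      (ρ : ι → (Gal →* M2 O)) (hρ : ∀ i, IsCont (ρ i)) (z : ι → ℕ → O),
      (∀ i, (f i).IsNormalizedEigenform) ∧ (∀ i, IsLift W hΔ V (ρ i) (hρ i) (z i)) ∧
      (∀ i i', (∀ σ, (ρ i σ).trace = (ρ i' σ).trace) → i = i') ∧
      ∀ (i : ι) (ℓ : ℕ), ℓ.Prime → W.IsGoodPrimeFor ℓ → ℓ ≠ 2 → ℓ ∉ V →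
        ∀ P : ValuationSubring Q̄, P.LiesOverPrime ℓ → ∀ φ : Gal, P.IsFrobeniusAt φ ℓ →
          j (ρ i φ).trace = ModularFormClass.qCoeff (f i) ℓ

/-- The automorphic half: the quaternionic Hecke algebra gives enough congruent eigenforms. -/
def ModularInput : Prop :=
  ∀ (W : WeierstrassCurve ℤ) (hW : TwoCurve W) (V : Finset ℕ),
    (∀ v ∈ V, AuxPrime W hW.Δ_ne_zero v 1 ∧ v % 12 = 1) →
      ModularFamily W hW.Δ_ne_zero V (classTwo W * 2 ^ V.card)

/-- The elements fixing the square roots of the discriminant. -/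
def galK (W : WeierstrassCurve ℤ) : Subgroup Gal :=
  (quadField W).fixingSubgroup

/-- A dihedral, everywhere unramified `2`-group quotient of `galK W` has at most `classTwo W`
elements. -/
def DihedralBound (W : WeierstrassCurve ℤ) : Prop :=
  ∀ (Γ : Type) [CommGroup Γ] [Finite Γ], IsPGroup 2 Γ → ∀ ψ : galK W →* Γ,
    (∃ L : IntermediateField ℚ Q̄, FiniteDimensional ℚ L ∧
      ∀ σ : galK W, (∀ x ∈ L, (σ : Gal) x = x) → ψ σ = 1) →
    Function.Surjective ψ →
    (∀ g : Gal, g ∉ galK W → ∀ σ τ : galK W, (τ : Gal) = g * σ * g⁻¹ → ψ τ = (ψ σ)⁻¹) →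
    (∀ q : ℕ, q.Prime → ∀ P : ValuationSubring Q̄, P.LiesOverPrime q →
      ∀ σ : galK W, (σ : Gal) ∈ P.inertiaSubgroupIn ℚ → ψ σ = 1) →
    Nat.card Γ ≤ classTwo W

/-- The bound on dihedral unramified quotients for every auxiliary curve. -/
def DihedralInput : Prop :=
  ∀ W : WeierstrassCurve ℤ, TwoCurve W → DihedralBound W

/-- A character of `galK W` with values in the class group whose value at a Frobenius with odd
trace is the `2`-part of the class of the prime, up to inversion. -/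
def ClassMap (W : WeierstrassCurve ℤ) : Prop :=
  ∃ e : galK W →* ClassGroup (NumberField.RingOfIntegers (quadField W)),
    (∃ L : IntermediateField ℚ Q̄, FiniteDimensional ℚ L ∧
      ∀ σ : galK W, (∀ x ∈ L, (σ : Gal) x = x) → e σ = 1) ∧
    ∀ ℓ : ℕ, ℓ.Prime → ℓ ≠ 2 → W.IsGoodPrimeFor ℓ → ¬ (2 : ℤ) ∣ W.apOfModel ℓ →
      ∀ P : ValuationSubring Q̄, P.LiesOverPrime ℓ → ∀ φ : galK W,
        P.IsFrobeniusAt (φ : Gal) ℓ →
        ∀ (I : nonZeroDivisors (Ideal (NumberField.RingOfIntegers (quadField W)))),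
          (I : Ideal (NumberField.RingOfIntegers (quadField W))).IsPrime →
          (ℓ : NumberField.RingOfIntegers (quadField W)) ∈
            (I : Ideal (NumberField.RingOfIntegers (quadField W))) →
          let m := Nat.card (ClassGroup (NumberField.RingOfIntegers (quadField W))) / classTwo W
          e φ = ClassGroup.mk0 I ^ m ∨ e φ = (ClassGroup.mk0 I ^ m)⁻¹

/-- Eigen systems of the quaternionic Hecke algebra congruent to `W[2]`, carried by theta series
of level `badLevel W * ∏ V`, pairwise distinct and as many as `c`. -/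
def EigenSystems (W : WeierstrassCurve ℤ) (V : Finset ℕ) (c : ℕ) : Prop :=
  ∃ (ι : Type) (_ : Finite ι) (A : ValuationSubring ℂ)
    (f : ι → ModularForm (CongruenceSubgroup.Gamma0 (badLevel W * ∏ v ∈ V, v)) 2)
    (lam u : ι → ℕ → ℂ),
    c ≤ Nat.card ι ∧ (2 : ℂ) ∈ A.nonunits ∧
    (∀ i, ModularFormClass.qCoeff (f i) 1 ≠ 0) ∧
    (∀ i, ∀ v ∈ V, u i v ^ 2 = 1 ∧
      ∀ n : ℕ, 0 < n → ModularFormClass.qCoeff (f i) (v * n) = u i v * ModularFormClass.qCoeff (f i) n) ∧
    (∀ (i : ι) (ℓ : ℕ), ℓ.Prime → W.IsGoodPrimeFor ℓ → ℓ ≠ 2 → ℓ ∉ V →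
      lam i ℓ - (W.apOfModel ℓ : ℂ) ∈ A.nonunits ∧
      ∀ n : ℕ, 0 < n → ModularFormClass.qCoeff (f i) (ℓ * n) +
          (if ℓ ∣ n then (ℓ : ℂ) * ModularFormClass.qCoeff (f i) (n / ℓ) else 0) =
        lam i ℓ * ModularFormClass.qCoeff (f i) n) ∧
    ∀ i i', (∀ ℓ : ℕ, ℓ.Prime → W.IsGoodPrimeFor ℓ → ℓ ≠ 2 → ℓ ∉ V → lam i ℓ = lam i' ℓ) →
      (∀ v ∈ V, u i v = u i' v) → i = i'

/-- The quaternionic part: Brandt modules and the seed. -/
def EigenInput : Prop :=
  ∀ (W : WeierstrassCurve ℤ) (hW : TwoCurve W) (V : Finset ℕ),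
    (∀ v ∈ V, AuxPrime W hW.Δ_ne_zero v 1 ∧ v % 12 = 1) →
      EigenSystems W V (classTwo W * 2 ^ V.card)

/-- The classical part: eigen systems give distinct newforms with lifts. -/
def FormsInput : Prop :=
  ∀ (W : WeierstrassCurve ℤ) (hW : TwoCurve W) (V : Finset ℕ),
    (∀ v ∈ V, AuxPrime W hW.Δ_ne_zero v 1 ∧ v % 12 = 1) →
      ∀ c : ℕ, EigenSystems W V c → ModularFamily W hW.Δ_ne_zero V c

theorem modularInput_of (h5 : EigenInput) (h6 : FormsInput) : ModularInput :=
  fun W hW V hV => h6 W hW V hV _ (h5 W hW V hV)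

end Fermat.Agent.Two
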