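import Fermat.Prelude.Def_FLTPrelim_ModularRep
import Fermat.Prelude.Def_WeierstrassCurve_Mlc1RowStatement
import Fermat.Agent.EC.Reduction.Frey
import Fermat.Agent.EC.Rep.Tate.Curve

/-!
# The inputs of the residual characteristic two argument

`TwoCurve W` records the properties of the auxiliary curve. The argument has four inputs:
the switch from the Frey curve to a curve with irreducible `3`-torsion (`SwitchInput`), the
passage from that curve to a `TwoCurve` congruent to it modulo `3` (`FamilyInput`), the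
congruences modulo powers of two with forms of level `4 * badLevel W * ∏ V`
(`CongruenceInput`), and the removal of the primes of `V` from the level (`LoweringInput`).
-/

set_option autoImplicit false

noncomputable section

namespace Fermat.Agent.Two

open WeierstrassCurve CuspForm ModularFormClass
open Fermat.Agent.EC.Rep

local notation "Q̄" => AlgebraicClosure ℚ
local notation "GQ" => AlgebraicClosure ℚ ≃ₐ[ℚ] AlgebraicClosure ℚ

/-- Semistable, negative discriminant with odd exponents, good supersingular reduction at `2`,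
and one bad prime congruent to `1` modulo `12`. -/
structure TwoCurve (W : WeierstrassCurve ℤ) : Prop where
  semistable : W.IsSemistableModel
  Δ_neg : W.Δ < 0
  two_not_dvd_Δ : ¬ (2 : ℤ) ∣ W.Δ
  two_dvd_a₁ : (2 : ℤ) ∣ W.a₁
  odd_val : ∀ q : ℕ, q.Prime → (q : ℤ) ∣ W.Δ → Odd (padicValInt q W.Δ)
  exists_bad_one_mod_twelve : ∃ ℓ : ℕ, ℓ.Prime ∧ ℓ % 12 = 1 ∧ (ℓ : ℤ) ∣ W.Δ

theorem TwoCurve.Δ_ne_zero {W : WeierstrassCurve ℤ} (h : TwoCurve W) : W.Δ ≠ 0 :=
  h.Δ_neg.ne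

/-- The product of the bad primes. -/
def badLevel (W : WeierstrassCurve ℤ) : ℕ := ∏ q ∈ W.Δ.natAbs.primeFactors, q

/-- A normalised eigenform of level `N` has Hecke eigenvalues congruent to those of `W` modulo
`2 ^ n`, in a valuation ring of `ℂ` over `2`, at the good primes prime to `2 * N`. -/
def CongrTwo (W : WeierstrassCurve ℤ) (N n : ℕ) : Prop :=
  ∃ f : CuspForm (CongruenceSubgroup.Gamma0 N) 2, f.IsNormalizedEigenform ∧
    ∃ A : ValuationSubring ℂ, (2 : ℂ) ∈ A.nonunits ∧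
      ∀ ℓ : ℕ, ℓ.Prime → W.IsGoodPrimeFor ℓ → ℓ ≠ 2 → ¬ ℓ ∣ N →
        ∃ c ∈ A, qCoeff f ℓ - (W.apOfModel ℓ : ℂ) = (2 : ℂ) ^ n * c

/-- Some Frobenius element at `v` acts on `W[2 ^ n]` as a unipotent and is nontrivial on `W[2]`. -/
def UnipotentFrobAt (W : WeierstrassCurve ℤ) (hΔ : W.Δ ≠ 0) (v n : ℕ) : Prop :=
  haveI : Fact (Nat.Prime 2) := ⟨Nat.prime_two⟩
  ∃ A : ValuationSubring Q̄, A.LiesOverPrime v ∧ ∃ σ : GQ, A.IsFrobeniusAt σ v ∧
    (∀ x : (tateRep W 2 hΔ).V,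
      ((tateRep W 2 hΔ).ρ σ - 1) (((tateRep W 2 hΔ).ρ σ - 1) x) ∈
        (Ideal.span {(2 : ℤ_[2]) ^ n}) • (⊤ : Submodule ℤ_[2] (tateRep W 2 hΔ).V)) ∧
    ∃ x : (tateRep W 2 hΔ).V, ((tateRep W 2 hΔ).ρ σ - 1) x ∉
        (Ideal.span {(2 : ℤ_[2])}) • (⊤ : Submodule ℤ_[2] (tateRep W 2 hΔ).V)

/-- An auxiliary prime for the congruence modulo `2 ^ n`. -/
structure AuxPrime (W : WeierstrassCurve ℤ) (hΔ : W.Δ ≠ 0) (v n : ℕ) : Prop where
  prime : v.Prime
  ne_two : v ≠ 2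
  good : W.IsGoodPrimeFor v
  unipotent : UnipotentFrobAt W hΔ v n

/-- The switch at `5`: a semistable curve with irreducible `3`-torsion, multiplicative at `2`
with exponent divisible by `3`, congruent to the Frey curve modulo `5`. -/
def SwitchInput : Prop :=
  ∀ P : FreyPackage, ∃ W : WeierstrassCurve ℤ, W.Δ ≠ 0 ∧ W.IsSemistableModel ∧
    W.ModRepIsIrreducible 3 ∧ (2 : ℤ) ∣ W.Δ ∧ 3 ∣ padicValInt 2 W.Δ ∧
    ∀ ℓ : ℕ, ℓ.Prime → P.freyCurveInt.IsGoodPrimeFor ℓ → W.IsGoodPrimeFor ℓ → ℓ ≠ 5 →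
      (5 : ℤ) ∣ W.apOfModel ℓ - P.freyCurveInt.apOfModel ℓ

/-- From a switched curve, a `TwoCurve` with the same Hecke eigenvalues modulo `3`. -/
def FamilyInput : Prop :=
  ∀ W : WeierstrassCurve ℤ, W.Δ ≠ 0 → W.IsSemistableModel → (2 : ℤ) ∣ W.Δ →
    3 ∣ padicValInt 2 W.Δ → ∃ W' : WeierstrassCurve ℤ, TwoCurve W' ∧
      ∀ ℓ : ℕ, ℓ.Prime → W.IsGoodPrimeFor ℓ → W'.IsGoodPrimeFor ℓ → ℓ ≠ 3 →
        (3 : ℤ) ∣ W'.apOfModel ℓ - W.apOfModel ℓ

/-- The congruences given by the `R = T` argument: the number of auxiliary primes is bounded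
independently of the modulus. -/
def CongruenceInput : Prop :=
  ∀ (W : WeierstrassCurve ℤ) (hW : TwoCurve W) (M : ℕ), ∃ n : ℕ, ∃ V : Finset ℕ,
    M + V.card ≤ n ∧ (∀ v ∈ V, AuxPrime W hW.Δ_ne_zero v n) ∧
    CongrTwo W (4 * badLevel W * ∏ v ∈ V, v) n

/-- Lowering: the congruences of unbounded depth give an eigenform of level `4 * badLevel W`. -/
def LoweringInput : Prop :=
  ∀ (W : WeierstrassCurve ℤ) (hW : TwoCurve W),
    (∀ M : ℕ, ∃ n : ℕ, ∃ V : Finset ℕ, M + V.card ≤ n ∧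
      (∀ v ∈ V, AuxPrime W hW.Δ_ne_zero v n) ∧
      CongrTwo W (4 * badLevel W * ∏ v ∈ V, v) n) →
    ∃ f : CuspForm (CongruenceSubgroup.Gamma0 (4 * badLevel W)) 2, f.IsNormalizedEigenform ∧
      ∀ ℓ : ℕ, ℓ.Prime → W.IsGoodPrimeFor ℓ → ℓ ≠ 2 → qCoeff f ℓ = (W.apOfModel ℓ : ℂ)

theorem badLevel_pos (W : WeierstrassCurve ℤ) : 0 < badLevel W :=
  Finset.prod_pos fun _ hq => (Nat.prime_of_mem_primeFactors hq).pos

theorem squarefree_badLevel (W : WeierstrassCurve ℤ) : Squarefree (badLevel W) := by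
  refine Nat.squarefree_iff_prime_squarefree.mpr fun x hx h => ?_
  set s := W.Δ.natAbs.primeFactors
  have hmem : x ∈ s := by
    obtain ⟨q, hq, hxq⟩ := (Prime.dvd_finsetProd_iff hx.prime _).1
      ((dvd_mul_right x x).trans h)
    rwa [(Nat.prime_dvd_prime_iff_eq hx (Nat.prime_of_mem_primeFactors hq)).1 hxq]
  rw [badLevel, ← Finset.mul_prod_erase s _ hmem] at h
  obtain ⟨q, hq, hxq⟩ := (Prime.dvd_finsetProd_iff hx.prime _).1
    (Nat.dvd_of_mul_dvd_mul_left hx.pos h)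
  exact (Finset.ne_of_mem_erase hq)
    ((Nat.prime_dvd_prime_iff_eq hx (Nat.prime_of_mem_primeFactors (Finset.mem_of_mem_erase hq))).1
      hxq).symm

theorem prime_dvd_badLevel_iff {W : WeierstrassCurve ℤ} (hΔ : W.Δ ≠ 0) {q : ℕ} (hq : q.Prime) :
    q ∣ badLevel W ↔ (q : ℤ) ∣ W.Δ := by
  constructor
  · intro h
    obtain ⟨r, hr, hqr⟩ := (Prime.dvd_finsetProd_iff hq.prime _).1 h
    obtain rfl := (Nat.prime_dvd_prime_iff_eq hq (Nat.prime_of_mem_primeFactors hr)).1 hqr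
    exact Int.natCast_dvd.mpr (Nat.dvd_of_mem_primeFactors hr)
  · intro h
    exact Finset.dvd_prod_of_mem _
      (Nat.mem_primeFactors.mpr ⟨hq, Int.natCast_dvd.mp h, Int.natAbs_ne_zero.mpr hΔ⟩)

end Fermat.Agent.Two
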