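import Fermat.Agent.Two.Endgame
import Fermat.Agent.Two.Congr.Main
import Fermat.Agent.Two.Galois.Forms
import Fermat.Agent.Two.Lower.Main
import Fermat.Agent.Two.Switch.Main
import Fermat.Agent.Two.Data.Family
import Fermat.Agent.Two.Eigen.Input
import Fermat.Agent.Two.Eigen.Seed
import Fermat.Agent.Two.Class.Bound
import Fermat.Agent.Two.Class.HasClassSeed
import Fermat.Agent.Two.Class.Transfer
import Fermat.Agent.Two.Class.Map
import Fermat.Agent.Two.ModTwo.Main
import Fermat.Agent.Two.Brandt.SetupFacts
import Fermat.Agent.S59

/-!
# Composition of the residual characteristic two argument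

The lifting input, and the congruence input given the cubic character of the auxiliary curve
(`PsiInput`, proved in `Two.Final`).
-/

set_option autoImplicit false

noncomputable section

namespace Fermat.Agent.Two

open Brandt

/-- The cubic character on the parameters attached to an auxiliary curve. -/
def PsiInput : Prop :=
  ∀ (W : WeierstrassCurve ℤ), TwoCurve W → ∀ (V : Finset ℕ) (S : Setup W V),
    ∃ ψ, Seed.IsPsi S ψ

theorem classMap_of_psi (hψ : PsiInput) (W : WeierstrassCurve ℤ) (hW : TwoCurve W) :
    ClassMap W := by
  obtain ⟨S⟩ := exists_setup hW (V := ∅) (by simp)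
  obtain ⟨ψ, hS⟩ := hψ W hW ∅ S
  exact Class.classMap_of_seedHom hW (Class.seedHom_of_classSeed hW S
    (Class.hasClassSeed_of_theta S (Seed.hasTheta_of_psi hW (by simp) S hS)))

theorem congruenceInput_of_psi (hψ : PsiInput) : CongruenceInput :=
  Congr.congruenceInput_of (ModTwo.galoisInput_of (Class.dihedralInput (classMap_of_psi hψ)))
    (modularInput_of (Eigen.eigenInput_of fun W hW V hV S => by
      obtain ⟨ψ, hS⟩ := hψ W hW V S
      exact Eigen.hasSeed_of_psi hW (fun v hv => (hV v hv).1.prime) S hS) Galois.formsInput)

theorem liftingInput : RT.Frey.LiftingInput :=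
  fun p hp W hΔ hW hirr M _ hres hM hM3 => S59.result p hp W hΔ hW hirr M hres hM hM3

end Fermat.Agent.Two

end
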