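import Fermat.Agent.Two.Composition
import Fermat.Agent.Two.Seed.PsiChar

/-!
# The cubic character, unconditionally
-/

set_option autoImplicit false

namespace Fermat.Agent.Two

/-- The cubic character exists for every auxiliary curve. -/
theorem psiInput : PsiInput := fun _ hW _ S => Seed.exists_isPsi hW S

end Fermat.Agent.Two
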