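import Fermat.Agent.Mazur.Small.Frey
import Fermat.Agent.EC.Reduction.Frey
import Fermat.Prelude.Def_FLTPrelim_ModularRep

/-!
# The mod `5` representation of a curve with square discriminant is irreducible

A Galois stable line in `E[5]` gives a rational point `(t, y)` on `X₀(5)` pulled back along the
square root of the discriminant, and that curve has no noncuspidal rational point.
-/

set_option autoImplicit false

open WeierstrassCurve WeierstrassCurve.Affine WeierstrassCurve.Affine.Point

namespace Fermat.Agent.Two.FreyFive

/-- An elliptic curve over `ℚ` with square discriminant has irreducible `E[5]`. -/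
theorem galoisRepIsIrreducible_five (E : WeierstrassCurve ℚ) [E.IsElliptic] {δ : ℚ}
    (hδ : E.Δ = δ ^ 2) : GaloisRepIsIrreducible (K := AlgebraicClosure ℚ) ℚ E 5 := by
  have hcard : Nat.card (Submodule.torsionBy ℤ (E⁄(AlgebraicClosure ℚ)).Point (5 : ℕ)) = 5 ^ 2 :=
    Fermat.Agent.EC.Torsion.natCard_torsionBy_algebraicClosureRat E (by norm_num)
  refine ⟨?_, fun N hst => ?_⟩
  · have : Finite (Submodule.torsionBy ℤ (E⁄(AlgebraicClosure ℚ)).Point (5 : ℕ)) :=
      Nat.finite_of_card_ne_zero (by rw [hcard]; norm_num)
    exact Finite.one_lt_card_iff_nontrivial.mp (by rw [hcard]; norm_num)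
  · by_contra h
    rw [not_or] at h
    exact Fermat.Agent.Mazur.Small.no_stable_line_five hδ hst h.1 h.2

/-- The Frey curve has irreducible `E[5]`, whatever the exponent. -/
theorem freyCurveInt_modRepIsIrreducible_five (P : FreyPackage) :
    P.freyCurveInt.ModRepIsIrreducible 5 := by
  have := Fermat.Agent.Mazur.Small.frey_isElliptic P
  show GaloisRepIsIrreducible (K := AlgebraicClosure ℚ) ℚ
    (P.freyCurveInt.map (Int.castRingHom ℚ)) 5
  rw [← Fermat.Agent.EC.Reduction.Frey.freyCurve_eq_map]
  exact galoisRepIsIrreducible_five P.freyCurve (Fermat.Agent.Mazur.Small.frey_delta_square P)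

end Fermat.Agent.Two.FreyFive
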