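import Fermat.Agent.Two.Inputs
import Fermat.Agent.Two.FreyFive
import Fermat.Agent.RT.Frey.Modular
import Fermat.Agent.RT.Frey.Top

/-!
# The endgame from the residual characteristic two inputs

The switched curve is modular by lifting at `3` from the congruent `TwoCurve`, and the Frey curve
by lifting at `5` from the switched curve.
-/

set_option autoImplicit false

open WeierstrassCurve WeierstrassCurve.Affine WeierstrassCurve.Affine.Point
open CuspForm

namespace Fermat.Agent.Two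

open Fermat.Agent.RT.Frey (LiftingInput LowerOddInput LowerAtPInput)

/-- An eigenform with the eigenvalues of `W'` makes a congruent curve residually modular. -/
theorem isResiduallyModularOfLevel_of_congr {W W' : WeierstrassCurve ℤ} {p M : ℕ}
    (hp : p.Prime) {f : CuspForm (CongruenceSubgroup.Gamma0 M) 2} (hf : f.IsNormalizedEigenform)
    (hcoeff : ∀ ℓ : ℕ, ℓ.Prime → ¬ ℓ ∣ M → W.IsGoodPrimeFor ℓ → ℓ ≠ p →
      ModularFormClass.qCoeff f ℓ = (W'.apOfModel ℓ : ℂ) ∧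
        (p : ℤ) ∣ W'.apOfModel ℓ - W.apOfModel ℓ) :
    W.IsResiduallyModularOfLevel p M := by
  obtain ⟨𝔪, h𝔪, hpm⟩ := FLTPrelim.exists_maximalIdeal_natCast_prime_mem hp
  refine ⟨f, 𝔪, hf, h𝔪, hpm, fun ℓ hℓ hgood hℓM hℓp => ?_⟩
  obtain ⟨hc, k, hk⟩ := hcoeff ℓ hℓ hℓM hgood hℓp
  refine ⟨(W'.apOfModel ℓ : integralClosure ℤ ℂ), ?_, ?_⟩
  · rw [hc]
    norm_cast
  · rw [← Int.cast_sub, hk]
    push_cast
    exact Ideal.mul_mem_right _ _ hpm

theorem exact_of_switched (h59 : LiftingInput) (hfam : FamilyInput) (hcongr : CongruenceInput)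
    (hlower : LoweringInput) (W : WeierstrassCurve ℤ) (hΔ : W.Δ ≠ 0) (hW : W.IsSemistableModel)
    (h3 : W.ModRepIsIrreducible 3) (h2 : (2 : ℤ) ∣ W.Δ) (h3v : 3 ∣ padicValInt 2 W.Δ) :
    Mlc1IsModularModelOfExactConductorLevel W := by
  obtain ⟨W', hW', hcong⟩ := hfam W hΔ hW h2 h3v
  obtain ⟨f, hf, hfW⟩ := hlower W' hW' (hcongr W' hW')
  have hsf : ∀ q : ℕ, q.Prime → ¬ q * q ∣ badLevel W' :=
    Nat.squarefree_iff_prime_squarefree.1 (squarefree_badLevel W')
  have hodd : ¬ 2 ∣ badLevel W' := fun h =>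
    hW'.two_not_dvd_Δ ((prime_dvd_badLevel_iff hW'.Δ_ne_zero Nat.prime_two).1 h)
  have : NeZero (4 * badLevel W') := ⟨mul_ne_zero (by norm_num) (badLevel_pos W').ne'⟩
  refine h59 3 (Or.inl rfl) W hΔ hW h3 (4 * badLevel W')
    (isResiduallyModularOfLevel_of_congr (W' := W') Nat.prime_three hf fun ℓ hℓ hℓM hgood hℓ3 => ?_) ?_ ?_
  · have hℓ2 : ℓ ≠ 2 := fun h => hℓM (h ▸ dvd_mul_of_dvd_left (by norm_num) _)
    have hgood' : W'.IsGoodPrimeFor ℓ := fun h =>
      hℓM (dvd_mul_of_dvd_right ((prime_dvd_badLevel_iff hW'.Δ_ne_zero hℓ).2 h) _)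
    exact ⟨hfW ℓ hℓ hgood' hℓ2, hcong ℓ hℓ hgood hgood' hℓ3⟩
  · intro h
    exact hsf 3 Nat.prime_three (by
      rw [← sq]
      exact (Nat.Coprime.dvd_mul_left (by norm_num)).1 h)
  · intro q hq _ h
    by_cases hq2 : q = 2
    · subst hq2
      exact hodd (Nat.dvd_of_mul_dvd_mul_left (k := 4) (by norm_num) h)
    · refine hsf q hq ?_
      have hco : Nat.Coprime (q ^ 3) 4 :=
        Nat.Coprime.pow 3 2 ((Nat.coprime_primes hq Nat.prime_two).2 hq2)
      exact ((dvd_mul_right (q * q) q).trans (dvd_of_eq (by ring))).trans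
        (hco.dvd_of_dvd_mul_left h)

/-- The Frey curve is modular at exactly its conductor level. -/
theorem exact_of_frey (h59 : LiftingInput) (hsw : SwitchInput) (hfam : FamilyInput)
    (hcongr : CongruenceInput) (hlower : LoweringInput) (P : FreyPackage) :
    Mlc1IsModularModelOfExactConductorLevel P.freyCurveInt := by
  obtain ⟨W, hΔ, hW, h3, h2, h3v, hcong⟩ := hsw P
  obtain ⟨N, hN, hsq, hsupp, f, hf, hfW⟩ :=
    exact_of_switched h59 hfam hcongr hlower W hΔ hW h3 h2 h3v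
  have : NeZero N := ⟨hN.ne'⟩
  have hsq' : ∀ q : ℕ, q.Prime → ¬ q ^ 2 ∣ N := fun q hq h =>
    hq.not_isUnit (hsq q (by rwa [← sq]))
  refine h59 5 (Or.inr rfl) P.freyCurveInt (EC.Reduction.Frey.Δ_ne_zero P)
    (RT.Frey.freyCurveInt_isSemistableModel P) (FreyFive.freyCurveInt_modRepIsIrreducible_five P)
    N (isResiduallyModularOfLevel_of_congr (W' := W) (by norm_num) hf fun ℓ hℓ hℓN hgood hℓ5 => ?_)
    (hsq' 5 (by norm_num)) fun q hq _ h => hsq' q hq ((pow_dvd_pow q (by norm_num)).trans h)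
  have hgood' : W.IsGoodPrimeFor ℓ := fun h => hℓN ((hsupp ℓ hℓ).2 h)
  exact ⟨hfW ℓ hℓ hgood' hℓN, hcong ℓ hℓ hgood hgood' hℓ5⟩

/-- The statement of milestone 4. -/
theorem freyCurve_isModular (h59 : LiftingInput) (hsw : SwitchInput) (hfam : FamilyInput)
    (hcongr : CongruenceInput) (hlower : LoweringInput) (P : FreyPackage) :
    P.freyCurve.IsModular := by
  obtain ⟨N, hN, -, -, hmod⟩ := exact_of_frey h59 hsw hfam hcongr hlower P
  exact ⟨P.freyCurveInt, RT.Frey.freyCurveInt_isIntegralModel P, N, hN, hmod⟩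

/-- The statement of milestone 6. -/
theorem exists_conductorLevel (h59 : LiftingInput) (hsw : SwitchInput) (hfam : FamilyInput)
    (hcongr : CongruenceInput) (hlower : LoweringInput) (P : FreyPackage) :
    ∃ N : ℕ, P.IsConductorLevel N ∧ P.ModularRepOfLevel N := by
  obtain ⟨N, hN, hsq, hsupp, f, hf, hfW⟩ := exact_of_frey h59 hsw hfam hcongr hlower P
  obtain ⟨𝔪, h𝔪, hpm⟩ := FLTPrelim.exists_maximalIdeal_natCast_prime_mem P.pp
  refine ⟨N, ⟨hN, hsq, fun q hq hqN => by_contra fun h =>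
    EC.Reduction.Frey.not_dvd_Δ P hq h ((hsupp q hq).1 hqN)⟩, f, P.freyCurveInt, 𝔪, hf,
    RT.Frey.freyCurveInt_isIntegralModel P, h𝔪, hpm, fun ℓ hℓ hgood hℓN _ => ?_⟩
  refine ⟨(P.freyCurveInt.apOfModel ℓ : integralClosure ℤ ℂ), ?_,
    by rw [sub_self]; exact zero_mem _⟩
  rw [hfW ℓ hℓ hgood hℓN]
  norm_cast

/-- The statement of milestone 3. -/
theorem false_of_freyPackage (h43 : LowerOddInput) (h44 : LowerAtPInput) (h59 : LiftingInput)
    (h09 : ∀ P : FreyPackage,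
      GaloisRepIsIrreducible (K := AlgebraicClosure ℚ) ℚ P.freyCurve P.p)
    (hsw : SwitchInput) (hfam : FamilyInput) (hcongr : CongruenceInput)
    (hlower : LoweringInput) (P : FreyPackage) : False := by
  obtain ⟨f, hf⟩ := RT.Frey.exists_form_two h43 h44 P (h09 P)
    (exists_conductorLevel h59 hsw hfam hcongr hlower P)
  exact hf (S07.result f)

end Fermat.Agent.Two
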