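import Fermat.Agent.Two.Assembly
import Fermat.Agent.S09
import Fermat.Agent.S43

/-!
# The endgame with the proved level lowering and irreducibility statements filled in

The hypotheses are the lifting at `3` and `5` and the four inputs of the residual characteristic
two argument; all five are supplied in `S03`.
-/

set_option autoImplicit false

namespace Fermat.Agent.Two

/-- No Frey package, from the lifting and the inputs at two. -/
theorem false_of_inputs (h59 : RT.Frey.LiftingInput) (hsw : SwitchInput) (hfam : FamilyInput)
    (hcongr : CongruenceInput) (hlower : LoweringInput) (P : FreyPackage) : False :=
  false_of_freyPackage (fun P => S43.result P) (fun P => S44.result P) h59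
    (fun P => S09.result P) hsw hfam hcongr hlower P

end Fermat.Agent.Two
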